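import Fermat.Agent.LiCriterion.Coefficients
import Mathlib.Analysis.Calculus.LogDerivUniformlyOn
import Mathlib.Analysis.Normed.Module.MultipliableUniformlyOn
import Mathlib.Analysis.Complex.LocallyUniformLimit

/-!
# Hadamard's product for `ξ`

`2 ξ s` is the product over the zeros with positive ordinate of the
`(1 - s (1 - s) / (ρ (1 - ρ))) ^ m`: both sides are entire, equal `1` at `0` and have the same
logarithmic derivative near `0`, by the partial fractions of `ξ'/ξ`.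
-/

set_option autoImplicit false

noncomputable section

namespace FA.XiProduct

open Complex Filter Metric Set Topology FA.RiemannMangoldt FA.ExplicitFormula FA.LiCriterion

/-- The zeros with positive ordinate. -/
abbrev UpperZero : Type := {ρ : ℂ // riemannZeta ρ = 0 ∧ 0 < ρ.re ∧ ρ.re < 1 ∧ 0 < ρ.im}

/-- `s (1 - s) / (ρ (1 - ρ))`. -/
def pairRatio (ρ s : ℂ) : ℂ := s * (1 - s) / (ρ * (1 - ρ))

/-- The factor of the pair `ρ`, `1 - ρ`. -/
def pairFactor (ρ : UpperZero) (s : ℂ) : ℂ :=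
  (1 - pairRatio ρ s) ^ zeroWeight (ρ : ℂ)

theorem upperZero_iff {ρ : ℂ} :
    riemannZeta ρ = 0 ∧ 0 < ρ.re ∧ ρ.re < 1 ∧ 0 < ρ.im ↔ xiFn ρ = 0 ∧ 0 < ρ.im := by
  have key : 0 < ρ.re → ρ.re < 1 → (xiFn ρ = 0 ↔ riemannZeta ρ = 0) := fun h0 h1 =>
    xiFn_eq_zero_iff h0 fun e => by rw [e] at h1; simp at h1
  exact ⟨fun ⟨a, b, c, d⟩ => ⟨(key b c).2 a, d⟩,
    fun ⟨a, d⟩ => ⟨(key (xiFn_zero_strip a).1 (xiFn_zero_strip a).2).1 a,
      (xiFn_zero_strip a).1, (xiFn_zero_strip a).2, d⟩⟩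

theorem den_ne_zero (ρ : UpperZero) : (ρ : ℂ) * (1 - ρ) ≠ 0 := by
  obtain ⟨ρ, -, -, -, h⟩ := ρ
  refine mul_ne_zero (fun e => ?_) (fun e => ?_)
  · rw [show ρ = 0 from e] at h; simp at h
  · rw [sub_eq_zero] at e
    rw [show ρ = 1 from e.symm] at h; simp at h

theorem summable_weight_div : Summable fun ρ : UpperZero =>
    (zeroWeight (ρ : ℂ) : ℝ) / ‖(ρ : ℂ) * (1 - ρ)‖ := by
  obtain ⟨d, hd, hinv⟩ := exists_inv_im_le
  obtain ⟨A, -, hsq⟩ := exists_sq_sum
  refine Summable.of_nonneg_of_le (fun ρ => by positivity) (fun ρ => ?_)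
    (((summable_of_sum_le (fun ρ => by positivity) hsq).comp_injective
      Subtype.val_injective).mul_left (d ^ 2))
  obtain ⟨hz, hi⟩ := upperZero_iff.1 ρ.2
  have h1 : (ρ : ℂ).im ^ 2 ≤ ‖(ρ : ℂ) * (1 - ρ)‖ := by
    rw [norm_mul, sq]
    refine mul_le_mul ((le_abs_self _).trans (abs_im_le_norm _)) ?_ hi.le (norm_nonneg _)
    refine le_trans (le_abs_self _) ?_
    simpa using abs_im_le_norm (1 - (ρ : ℂ))
  have h2 := pow_le_pow_left₀ (by positivity) (hinv ρ hz) 2
  rw [abs_of_pos hi, one_div_pow, mul_pow, one_div_pow] at h2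
  calc (zeroWeight (ρ : ℂ) : ℝ) / ‖(ρ : ℂ) * (1 - ρ)‖
      ≤ zeroWeight (ρ : ℂ) * (1 / (ρ : ℂ).im ^ 2) := by
        rw [mul_one_div]
        exact div_le_div_of_nonneg_left (Nat.cast_nonneg _) (by positivity) h1
    _ ≤ zeroWeight (ρ : ℂ) * (d ^ 2 * (1 / (1 + (ρ : ℂ).im) ^ 2)) :=
        mul_le_mul_of_nonneg_left h2 (Nat.cast_nonneg _)
    _ = _ := by simp [abs_of_pos hi]; ring

theorem norm_one_add_pow_sub_one_le (x : ℂ) (m : ℕ) :
    ‖(1 + x) ^ m - 1‖ ≤ (1 + ‖x‖) ^ m - 1 := by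
  induction m with
  | zero => simp
  | succ m ih =>
    rw [show (1 + x) ^ (m + 1) - 1 = ((1 + x) ^ m - 1) * (1 + x) + x by ring]
    refine (norm_add_le _ _).trans ?_
    rw [norm_mul]
    have h1 : ‖1 + x‖ ≤ 1 + ‖x‖ := (norm_add_le _ _).trans (by rw [norm_one])
    have := mul_le_mul ih h1 (norm_nonneg _)
      (sub_nonneg.2 (one_le_pow₀ (by linarith [norm_nonneg x])))
    rw [pow_succ]
    linarith

theorem norm_pow_sub_one_le {x : ℂ} {m : ℕ} (h : (m : ℝ) * ‖x‖ ≤ 1 / 2) :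
    ‖(1 + x) ^ m - 1‖ ≤ 2 * ((m : ℝ) * ‖x‖) := by
  obtain ⟨v, hv⟩ : ∃ v, v = (m : ℝ) * ‖x‖ := ⟨_, rfl⟩
  have hv0 : 0 ≤ v := hv ▸ by positivity
  rw [← hv] at h ⊢
  refine (norm_one_add_pow_sub_one_le x m).trans ?_
  have h1 : (1 + ‖x‖) ^ m ≤ Real.exp v := by
    rw [hv, Real.exp_nat_mul, add_comm]
    exact pow_le_pow_left₀ (by positivity) (Real.add_one_le_exp _) m
  have h2 := mul_le_mul_of_nonneg_right (Real.add_one_le_exp (-v)) (Real.exp_pos v).le
  rw [← Real.exp_add, neg_add_cancel, Real.exp_zero] at h2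
  nlinarith [Real.exp_pos v]

/-- The majorant on the ball of radius `R`. -/
def majorant (R : ℝ) (ρ : UpperZero) : ℝ :=
  R * (1 + R) * ((zeroWeight (ρ : ℂ) : ℝ) / ‖(ρ : ℂ) * (1 - ρ)‖)

theorem summable_majorant (R : ℝ) : Summable (majorant R) := summable_weight_div.mul_left _

theorem eventually_norm_factor_le (R : ℝ) (hR : 0 ≤ R) : ∀ᶠ ρ in cofinite, ∀ s ∈ ball (0 : ℂ) R,
    ‖pairFactor ρ s - 1‖ ≤ 2 * majorant R ρ := by
  filter_upwards [(summable_majorant R).tendsto_cofinite_zero.eventually_le_const one_half_pos]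
    with ρ hρ s hs
  have h1 : (zeroWeight (ρ : ℂ) : ℝ) * ‖-pairRatio ρ s‖ ≤ majorant R ρ := by
    rw [norm_neg, pairRatio, norm_div, majorant, mul_div_assoc', mul_div_assoc',
      mul_comm (R * (1 + R))]
    refine div_le_div_of_nonneg_right (mul_le_mul_of_nonneg_left ?_ (Nat.cast_nonneg _))
      (norm_nonneg _)
    rw [mem_ball_zero_iff] at hs
    rw [norm_mul]
    exact mul_le_mul hs.le ((norm_sub_le _ _).trans (by rw [norm_one]; linarith))
      (norm_nonneg _) hR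
  have h2 := norm_pow_sub_one_le (h1.trans hρ)
  rw [← sub_eq_add_neg] at h2
  rw [pairFactor]
  linarith

theorem hasProdLocallyUniformlyOn_factor (R : ℝ) (hR : 0 ≤ R) :
    HasProdLocallyUniformlyOn pairFactor (fun s => ∏' ρ, pairFactor ρ s) (ball 0 R) := by
  have h := Summable.hasProdLocallyUniformlyOn_one_add (f := fun ρ s => pairFactor ρ s - 1)
    (isOpen_ball : IsOpen (ball (0 : ℂ) R)) ((summable_majorant R).mul_left 2)
    (eventually_norm_factor_le R hR)
    fun ρ => (by unfold pairFactor pairRatio; fun_prop : Continuous fun s =>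
      pairFactor ρ s - 1).continuousOn
  simpa using h

theorem differentiable_factor (ρ : UpperZero) : Differentiable ℂ (pairFactor ρ) := by
  unfold pairFactor pairRatio
  fun_prop

theorem differentiable_xiProd : Differentiable ℂ fun s => ∏' ρ, pairFactor ρ s := fun s => by
  have h := hasProdLocallyUniformlyOn_factor (‖s‖ + 1) (by positivity)
  rw [hasProdLocallyUniformlyOn_iff_tendstoLocallyUniformlyOn] at h
  exact (h.differentiableOn (.of_forall fun F => by
    simpa [Finset.prod_fn] using (Differentiable.fun_finsetProd fun ρ _ =>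
      differentiable_factor ρ).differentiableOn) isOpen_ball).differentiableAt
      (isOpen_ball.mem_nhds (mem_ball_zero_iff.2 (lt_add_one _)))

theorem xiFn_zero' : xiFn 0 = 1 / 2 := by simp [xiFn]

theorem factor_ne_zero {s : ℂ} (hs : xiFn s ≠ 0) (ρ : UpperZero) : 1 - pairRatio ρ s ≠ 0 := by
  intro h
  rw [pairRatio, sub_eq_zero, eq_div_iff (den_ne_zero ρ), one_mul] at h
  have h2 : (s - (ρ : ℂ)) * (s - (1 - ρ)) = 0 := by linear_combination h
  have hz := (upperZero_iff.1 ρ.2).1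
  rcases mul_eq_zero.1 h2 with e | e <;> rw [sub_eq_zero] at e <;> rw [e] at hs
  · exact hs hz
  · exact hs (by rw [xiFn_one_sub, hz])

theorem pairTerm_one_sub (s ρ : ℂ) : pairTerm s (1 - ρ) = pairTerm s ρ := by
  rw [pairTerm, pairTerm, zeroWeight_one_sub, show s - 1 + (1 - ρ) = s - ρ by ring,
    show s - (1 - ρ) = s - 1 + ρ by ring, add_comm]

theorem logDeriv_factor {s : ℂ} (hs : xiFn s ≠ 0) (ρ : UpperZero) :
    logDeriv (pairFactor ρ) s = 2 * pairTerm s ρ := by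
  have hd : HasDerivAt (fun z => 1 - pairRatio ρ z) (-((1 - 2 * s) / ((ρ : ℂ) * (1 - ρ)))) s := by
    refine ((((hasDerivAt_id' s).mul ((hasDerivAt_id' s).const_sub 1)).div_const
      _).const_sub 1).congr_deriv ?_
    ring
  have hne := factor_ne_zero hs ρ
  have hz := (upperZero_iff.1 ρ.2).1
  have h1 : s - (ρ : ℂ) ≠ 0 := sub_ne_zero.2 fun e => hs (e ▸ hz)
  have h2 : s - 1 + (ρ : ℂ) ≠ 0 := fun e => hs (by
    rw [show s = 1 - (ρ : ℂ) by linear_combination e, xiFn_one_sub, hz])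
  have := den_ne_zero ρ
  unfold pairFactor
  rw [logDeriv_fun_pow hd.differentiableAt, logDeriv_apply, hd.deriv, pairTerm, pairRatio]
  have e : 1 - s * (1 - s) / ((ρ : ℂ) * (1 - ρ)) =
      (s - ρ) * (s - 1 + ρ) / ((ρ : ℂ) * (1 - ρ)) := by
    rw [eq_div_iff this, sub_mul, div_mul_cancel₀ _ this]
    ring
  rw [e, ← neg_div, div_div_div_cancel_right₀ this]
  field_simp
  ring

theorem hasSum_logDeriv_factor {s : ℂ} (hs : xiFn s ≠ 0) :
    HasSum (fun ρ : UpperZero => logDeriv (pairFactor ρ) s) (xiLogDeriv s) := by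
  have h := hasSum_pairTerm hs
  obtain ⟨g, hg⟩ : ∃ g : ℂ → ℂ,
      g = {ρ : ℂ | 0 < ρ.im}.indicator fun ρ => 2 * pairTerm s ρ := ⟨_, rfl⟩
  have hsum : Summable g := hg ▸ (h.summable.mul_left 2).indicator _
  obtain ⟨a, ha⟩ := hsum
  have ha' : HasSum (fun ρ => g (1 - ρ)) a := (Equiv.subLeft (1 : ℂ)).hasSum_iff.2 ha
  have hadd := ha.add ha'
  have e : ∀ ρ, g ρ + g (1 - ρ) = 2 * pairTerm s ρ := fun ρ => by
    rw [hg]
    simp only [indicator, Set.mem_ofPred_eq, sub_im, one_im, zero_sub, pairTerm_one_sub,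
      Left.neg_pos_iff]
    rcases lt_trichotomy 0 ρ.im with hi | hi | hi
    · rw [if_pos hi, if_neg (not_lt.2 hi.le), add_zero]
    · rw [if_neg (by rw [← hi]; exact lt_irrefl _), if_neg (by rw [← hi]; exact lt_irrefl _),
        add_zero, pairTerm, zeroWeight_eq_zero]
      · simp
      · rw [show ρ = ((ρ.re : ℝ) : ℂ) from Complex.ext (by simp) (by simp [hi])]
        exact xiFn_real_ne_zero _
    · rw [if_neg (not_lt.2 hi.le), if_pos hi, zero_add]
  simp only [e] at hadd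
  have := hadd.unique (h.mul_left 2)
  rw [← two_mul] at this
  rw [mul_left_cancel₀ two_ne_zero this, hg] at ha
  refine ((hasSum_subtype_iff_of_support_subset fun ρ hρ => ?_).2 ha).congr_fun fun ρ => ?_
  · rw [Function.mem_support] at hρ
    by_contra hne
    refine hρ ?_
    by_cases hi : 0 < ρ.im
    · have : xiFn ρ ≠ 0 := fun hz => hne (upperZero_iff.2 ⟨hz, hi⟩)
      simp [pairTerm, zeroWeight_eq_zero this]
    · simp [hi]
  · have hi : 0 < (ρ : ℂ).im := ρ.2.2.2.2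
    simp [logDeriv_factor hs, hi]

theorem tprod_zero : ∏' ρ, pairFactor ρ 0 = 1 := by simp [pairFactor, pairRatio]

theorem logDeriv_xiProd {z : ℂ} (hxz : xiFn z ≠ 0) (hPz : ∏' ρ, pairFactor ρ z ≠ 0) :
    logDeriv (fun w => ∏' ρ, pairFactor ρ w) z = xiLogDeriv z := by
  have h := logDeriv_tprod_eq_tsum (f := pairFactor) (s := ball (0 : ℂ) (‖z‖ + 1)) (x := z)
    isOpen_ball (mem_ball_zero_iff.2 (lt_add_one _))
    (fun ρ => by rw [pairFactor]; exact pow_ne_zero _ (factor_ne_zero hxz ρ))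
    (fun ρ => (differentiable_factor ρ).differentiableOn)
    (hasSum_logDeriv_factor hxz).summable
    (hasProdLocallyUniformlyOn_factor _ (by positivity)).multipliableLocallyUniformlyOn hPz
  exact h.trans (hasSum_logDeriv_factor hxz).tsum_eq

/-- **Hadamard's product.** -/
theorem tprod_factor (s : ℂ) : ∏' ρ, pairFactor ρ s = 2 * xiFn s := by
  obtain ⟨P, hP⟩ : ∃ P : ℂ → ℂ, P = fun s => ∏' ρ, pairFactor ρ s := ⟨_, rfl⟩
  have hPd : Differentiable ℂ P := hP ▸ differentiable_xiProd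
  have hP0 : P 0 = 1 := by rw [hP]; exact tprod_zero
  obtain ⟨r, hr, hr'⟩ : ∃ r > 0, ∀ z : ℂ, ‖z‖ < r → P z ≠ 0 ∧ xiFn z ≠ 0 := by
    have h1 : ∀ᶠ z in 𝓝 (0 : ℂ), P z ≠ 0 ∧ xiFn z ≠ 0 :=
      (hPd.continuous.continuousAt.eventually_ne (by rw [hP0]; exact one_ne_zero)).and
        (differentiable_xiFn.continuous.continuousAt.eventually_ne (by rw [xiFn_zero']; norm_num))
    obtain ⟨r, hr, h⟩ := Metric.eventually_nhds_iff.1 h1
    exact ⟨r, hr, fun z hz => h (by rwa [dist_zero_right])⟩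
  obtain ⟨q, hq⟩ : ∃ q : ℂ → ℂ, q = fun z => xiFn z / P z := ⟨_, rfl⟩
  have hq0 : ∀ z ∈ ball (0 : ℂ) r, HasDerivAt q 0 z := fun z hz => by
    obtain ⟨hPz, hxz⟩ := hr' z (mem_ball_zero_iff.1 hz)
    have hld := logDeriv_xiProd hxz (by rw [hP] at hPz; exact hPz)
    rw [← hP, logDeriv_apply, xiLogDeriv, div_eq_div_iff hPz hxz] at hld
    have hd := (differentiable_xiFn z).hasDerivAt.div (hPd z).hasDerivAt hPz
    rw [hq]
    refine hd.congr_deriv ?_
    rw [div_eq_zero_iff]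
    exact Or.inl (by linear_combination -hld)
  have hconst : ∀ z ∈ ball (0 : ℂ) r, q z = q 0 := fun z hz =>
    (convex_ball (0 : ℂ) r).is_const_of_fderivWithin_eq_zero (𝕜 := ℂ)
      (fun w hw => (hq0 w hw).differentiableAt.differentiableWithinAt) (fun w hw => by
        rw [fderivWithin_of_isOpen isOpen_ball hw]
        exact ((hq0 w hw).hasFDerivAt).fderiv.trans (by simp)) hz (mem_ball_self hr)
  have hloc : P =ᶠ[𝓝 0] fun z => 2 * xiFn z := by
    filter_upwards [ball_mem_nhds (0 : ℂ) hr] with z hz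
    have h1 := hconst z hz
    rw [hq, show (fun z => xiFn z / P z) 0 = 1 / 2 by simp [hP0, xiFn_zero']] at h1
    rw [div_eq_iff (hr' z (mem_ball_zero_iff.1 hz)).1] at h1
    rw [h1]
    ring
  have := AnalyticOnNhd.eqOn_of_preconnected_of_eventuallyEq (U := univ)
    (fun z _ => hPd.analyticAt z)
    (fun z _ => (differentiable_xiFn.const_mul 2).analyticAt z) isPreconnected_univ
    (mem_univ (0 : ℂ)) hloc (mem_univ s)
  rwa [hP] at this

theorem hasProd_factor (s : ℂ) : HasProd (fun ρ => pairFactor ρ s) (2 * xiFn s) := by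
  have h := (hasProdLocallyUniformlyOn_factor (‖s‖ + 1) (by positivity)).hasProd
    (mem_ball_zero_iff.2 (lt_add_one _))
  rwa [tprod_factor s] at h

end FA.XiProduct

end
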