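import Fermat.Agent.LindelofZeros.Poisson
import Fermat.Agent.OrdinateGaps.Main
import Fermat.Agent.OneSided.Main

/-!
# The monotonicity criteria

The Riemann hypothesis holds iff `re (ξ'/ξ) > 0` in `re s > 1/2` (Lagarias 1999), iff on every
horizontal line `|ξ|` increases strictly in `re s > 1/2` (Sondow–Dumitrescu 2010).
-/

set_option autoImplicit false

noncomputable section

namespace FA.XiProduct

open Complex Set FA.RiemannMangoldt FA.ExplicitFormula FA.LindelofZeros
open scoped ComplexConjugate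

theorem re_eq_half (h : RiemannHypothesis) {ρ : ℂ} (hρ : xiFn ρ = 0) : ρ.re = 1 / 2 := by
  obtain ⟨h0, h1⟩ := xiFn_zero_strip hρ
  have hne : ρ ≠ 1 := fun h' => by rw [h'] at h1; simp at h1
  refine h ρ ((xiFn_eq_zero_iff h0 hne).1 hρ) ?_ hne
  rintro ⟨n, rfl⟩
  simp at h0
  linarith [(Nat.cast_nonneg n : (0 : ℝ) ≤ n)]

/-- `re (ξ'/ξ)` is positive to the right of the critical line. -/
def RePositive : Prop := ∀ s : ℂ, 1 / 2 < s.re → 0 < (xiLogDeriv s).re

/-- `|ξ|` increases along the horizontal lines to the right of the critical line. -/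
def NormIncreasing : Prop :=
  ∀ t : ℝ, StrictMonoOn (fun σ : ℝ => ‖xiFn ((σ : ℂ) + t * I)‖) (Ioi (1 / 2))

theorem rePositive_of_riemannHypothesis (h : RiemannHypothesis) : RePositive := fun s hs => by
  rw [← re_add_im s]
  obtain ⟨σ, hσ⟩ : ∃ σ, σ = s.re := ⟨_, rfl⟩
  rw [← hσ] at hs ⊢
  have hxi : xiFn ((σ : ℂ) + s.im * I) ≠ 0 := fun h0 => by
    have := re_eq_half h h0
    simp at this
    linarith
  have hsum := hasSum_lineTerm hxi
  obtain ⟨T₀, hT₀⟩ := FA.OrdinateGaps.exists_ordinate_near one_pos le_rfl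
  obtain ⟨ρ₀, hρ₀, -⟩ := hT₀ T₀ le_rfl
  have hw : (0 : ℝ) < zeroWeight ρ₀ := Nat.cast_pos.2 (one_le_zeroWeight hρ₀)
  have hnonneg : ∀ ρ, 0 ≤ lineTerm σ s.im ρ := fun ρ => by
    by_cases hρ : xiFn ρ = 0
    · rw [lineTerm, pois, re_eq_half h hρ]
      exact mul_nonneg (Nat.cast_nonneg _) (div_nonneg (by linarith) (by positivity))
    · simp [lineTerm, zeroWeight_eq_zero hρ]
  have hpos : 0 < lineTerm σ s.im ρ₀ := by
    rw [lineTerm, pois, re_eq_half h hρ₀]
    exact mul_pos hw (div_pos (by linarith)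
      (add_pos_of_pos_of_nonneg (pow_pos (by linarith) 2) (sq_nonneg _)))
  exact hpos.trans_le (le_hasSum hsum ρ₀ fun ρ _ => hnonneg ρ)

theorem normIncreasing_of_rePositive (h : RePositive) : NormIncreasing := fun t => by
  obtain ⟨g, hg⟩ : ∃ g : ℝ → ℝ, g = fun σ : ℝ => ‖xiFn ((σ : ℂ) + t * I)‖ ^ 2 := ⟨_, rfl⟩
  have hmono : StrictMonoOn g (Ioi (1 / 2)) := by
    have hd : ∀ σ : ℝ, HasDerivAt (fun σ : ℝ => xiFn ((σ : ℂ) + t * I))
        (deriv xiFn ((σ : ℂ) + t * I)) σ := fun σ => by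
      have hin : HasDerivAt (fun σ : ℂ => σ + t * I) 1 σ := (hasDerivAt_id' _).add_const _
      simpa using ((differentiable_xiFn _).hasDerivAt.comp (σ : ℂ) hin).comp_ofReal
    have hgd : ∀ σ : ℝ, HasDerivAt g
        (2 * (deriv xiFn ((σ : ℂ) + t * I) * conj (xiFn ((σ : ℂ) + t * I))).re) σ := fun σ => by
      obtain ⟨s, hs⟩ : ∃ s : ℂ, s = (σ : ℂ) + t * I := ⟨_, rfl⟩
      have h2 := (hd σ).norm_sq
      rw [hg]
      refine h2.congr_deriv ?_
      rw [Complex.inner]
    refine strictMonoOn_of_hasDerivWithinAt_pos (convex_Ioi _)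
      (fun σ _ => (hgd σ).continuousAt.continuousWithinAt)
      (fun σ _ => (hgd σ).hasDerivWithinAt) fun σ hσ => ?_
    rw [interior_Ioi] at hσ
    have hp := h ((σ : ℂ) + t * I) (by simpa using hσ)
    rw [xiLogDeriv, div_re, ← add_div] at hp
    have hden : 0 < normSq (xiFn ((σ : ℂ) + t * I)) :=
      normSq_pos.2 fun e => by rw [e] at hp; simp at hp
    have := mul_pos hp hden
    rw [div_mul_cancel₀ _ hden.ne'] at this
    simp only [mul_re, conj_re, conj_im]
    linarith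
  intro a ha b hb hab
  have := hmono ha hb hab
  rw [hg] at this
  exact lt_of_pow_lt_pow_left₀ 2 (norm_nonneg _) this

theorem riemannHypothesis_of_normIncreasing (h : NormIncreasing) : RiemannHypothesis := by
  refine FA.OneSided.riemannHypothesis_of_zero_free fun s hs hs1 hz => ?_
  have hxi : xiFn s = 0 :=
    (xiFn_eq_zero_iff (by linarith) fun e => by rw [e] at hs1; simp at hs1).2 hz
  obtain ⟨a, ha⟩ : ∃ a, a = (1 / 2 + s.re) / 2 := ⟨_, rfl⟩
  have h1 := h s.im (show a ∈ Ioi (1 / 2) by rw [mem_Ioi]; linarith)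
    (show s.re ∈ Ioi (1 / 2) from hs) (by linarith)
  simp only [re_add_im, hxi, norm_zero] at h1
  exact absurd h1 (not_lt.2 (norm_nonneg _))

end FA.XiProduct

end
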