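import Fermat.Agent.LindelofZeros.Main
import Fermat.Agent.RiemannMangoldt.Main

/-!
# The argument of `ζ` under the hypothesis of Lindelöf

`S (T) = o (log T)`: on the horizontal segment at height `T` the part right of `1/2 + δ` comes
from the disc of Backlund's theorem, and on the short part each zero gives at most
`min (π, δ / |γ - T|)`, where few ordinates are very close to `T`.
-/

set_option autoImplicit false

noncomputable section

namespace FA.XiProduct

open Complex Set Filter Topology MeasureTheory Metric FA.RiemannMangoldt FA.ExplicitFormula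
open FA.LindelofZeros FA.LiCriterion
open FA.ZeroFree (ell)
open scoped Real ComplexConjugate

/-- The imaginary part of `ξ'/ξ` along the right half of a horizontal segment. -/
def horArg (t : ℝ) : ℝ := ∫ u in (1 / 2 : ℝ)..2, (xiLogDeriv ((u : ℂ) + t * I)).im

theorem xiLogDeriv_conj (s : ℂ) : xiLogDeriv (conj s) = conj (xiLogDeriv s) := by
  have h : deriv xiFn (conj s) = conj (deriv xiFn s) := by
    have h1 := congrFun (deriv_conj_conj (𝕜 := ℂ) (f := xiFn)) (conj s)
    rw [show conj ∘ xiFn ∘ conj = xiFn from funext fun z => by simp [xiFn_conj]] at h1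
    simpa using h1
  rw [xiLogDeriv, xiLogDeriv, h, xiFn_conj, map_div₀]

theorem horArg_neg (t : ℝ) : horArg (-t) = -horArg t := by
  rw [horArg, horArg, ← intervalIntegral.integral_neg]
  refine intervalIntegral.integral_congr fun u _ => ?_
  rw [show (u : ℂ) + ((-t : ℝ) : ℂ) * I = conj ((u : ℂ) + t * I) by simp, xiLogDeriv_conj, conj_im]

theorem im_integral_eq_horArg {t : ℝ} (hord : ∀ ρ, xiFn ρ = 0 → ρ.im ≠ t) :
    (∫ u in (1 / 2 : ℝ)..2, xiLogDeriv ((u : ℂ) + t * I)).im = horArg t := by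
  have hc : Continuous fun u : ℝ => xiLogDeriv ((u : ℂ) + t * I) :=
    continuous_iff_continuousAt.2 fun u => ContinuousAt.comp' (g := xiLogDeriv)
      (continuousAt_xiLogDeriv fun h => hord _ h (by simp)) (by fun_prop)
  exact (imCLM.intervalIntegral_comp_comm (hc.intervalIntegrable _ _)).symm

theorem im_inv_sub (v t : ℝ) (ρ : ℂ) :
    (((v : ℂ) + t * I - ρ)⁻¹).im = -pois (t - ρ.im) (v - ρ.re) := by
  rw [inv_im, normSq_apply, pois, ← neg_div]
  simp [sq]
  ring

theorem im_sum_inv (Z : Multiset ℂ) (v t : ℝ) :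
    ((Z.map fun ρ => ((v : ℂ) + t * I - ρ)⁻¹).sum).im =
      -(Z.map fun ρ => pois (t - ρ.im) (v - ρ.re)).sum := by
  induction Z using Multiset.induction_on with
  | empty => simp
  | cons ρ Z ih =>
    simp only [Multiset.map_cons, Multiset.sum_cons, add_im, ih, im_inv_sub]
    ring

/-- At most `π`, and at most `(b - a) / w` at distance over `w`, from each root. -/
theorem abs_integral_im_roots (Z : Multiset ℂ) {t w a b : ℝ} (hw : 0 < w) (hab : a ≤ b) :
    IntervalIntegrable (fun v => (Z.map fun ρ => pois (t - ρ.im) (v - ρ.re)).sum) volume a b ∧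
      |∫ v in a..b, (Z.map fun ρ => pois (t - ρ.im) (v - ρ.re)).sum| ≤
        π * Multiset.card (Z.filter fun ρ => |ρ.im - t| ≤ w) +
          (b - a) / w * Multiset.card Z := by
  induction Z using Multiset.induction_on with
  | empty => simp
  | cons ρ Z ih =>
    have h1 := intervalIntegrable_pois (t - ρ.im) ρ.re a b
    simp only [Multiset.map_cons, Multiset.sum_cons, Multiset.card_cons]
    refine ⟨h1.add ih.1, ?_⟩
    rw [intervalIntegral.integral_add h1 ih.1]
    refine (abs_add_le _ _).trans ?_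
    have h0 : 0 ≤ (b - a) / w := div_nonneg (by linarith) hw.le
    have ih2 := ih.2
    by_cases hc : |ρ.im - t| ≤ w
    · rw [Multiset.filter_cons_of_pos (p := fun ρ : ℂ => |ρ.im - t| ≤ w) _ hc,
        Multiset.card_cons, integral_pois]
      push_cast
      linarith [abs_kern_le (t - ρ.im) ρ.re a b]
    · rw [Multiset.filter_cons_of_neg (p := fun ρ : ℂ => |ρ.im - t| ≤ w) _ hc]
      have hp : ∀ v : ℝ, |pois (t - ρ.im) (v - ρ.re)| ≤ 1 / w := fun v => by
        obtain ⟨d, hd⟩ : ∃ d, d = t - ρ.im := ⟨_, rfl⟩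
        have hdw : w < |d| := by rw [hd, abs_sub_comm]; exact not_le.1 hc
        rw [pois, ← hd, abs_div, abs_of_nonneg (show 0 ≤ d ^ 2 + (v - ρ.re) ^ 2 by positivity)]
        have hd2 : 0 < d ^ 2 + (v - ρ.re) ^ 2 := by
          nlinarith [sq_abs d, sq_nonneg (v - ρ.re)]
        rw [div_le_div_iff₀ hd2 hw]
        nlinarith [sq_abs d, sq_nonneg (v - ρ.re), abs_nonneg d]
      have h2 : |∫ v in a..b, pois (t - ρ.im) (v - ρ.re)| ≤ (b - a) / w := by
        rw [← Real.norm_eq_abs]
        refine (intervalIntegral.norm_integral_le_of_norm_le_const fun v _ => hp v).trans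
          (le_of_eq ?_)
        rw [abs_of_nonneg (by linarith : 0 ≤ b - a)]
        ring
      push_cast
      linarith

/-- `ζ'/ζ` on a horizontal line without zeros. -/
theorem zeta_ne_zero_horizontal {t u : ℝ} (ht : 1 ≤ t) (hord : ∀ ρ, xiFn ρ = 0 → ρ.im ≠ t)
    (hu : 0 < u) : (u : ℂ) + t * I ≠ 1 ∧ riemannZeta ((u : ℂ) + t * I) ≠ 0 := by
  have h1 : (u : ℂ) + t * I ≠ 1 := fun e => by
    have := congrArg Complex.im e
    simp at this
    linarith
  exact ⟨h1, fun h => hord _ ((xiFn_eq_zero_iff (by simpa using hu) h1).2 h) (by simp)⟩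

/-- **The horizontal segments.** -/
theorem exists_horArg_small (hS : FA.Backlund.ZerosSparse) {ε : ℝ} (hε : 0 < ε) :
    ∃ T₀ : ℝ, ∀ t : ℝ, T₀ ≤ t → (∀ ρ, xiFn ρ = 0 → ρ.im ≠ t) →
      |horArg t| ≤ ε * Real.log t := by
  classical
  obtain ⟨e, he⟩ : ∃ e, e = ε / 40 := ⟨_, rfl⟩
  have he0 : 0 < e := he ▸ by positivity
  obtain ⟨K, hK, hexp⟩ := exists_zeta_expansion
  obtain ⟨C, hC, hright⟩ := FA.PairCorrelation.exists_logDeriv_right
  obtain ⟨w, hw⟩ : ∃ w, w = min e (1 / 10) := ⟨_, rfl⟩
  have hw0 : 0 < w := hw ▸ lt_min he0 (by norm_num)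
  have hwe : w ≤ e := hw ▸ min_le_left _ _
  have hw1 : w ≤ 1 / 10 := hw ▸ min_le_right _ _
  obtain ⟨δ, hδd⟩ : ∃ δ, δ = min (1 / 2) (e / ((1 + 1 / w) * (K * 7) + 1)) := ⟨_, rfl⟩
  have hδ : 0 < δ := hδd ▸ lt_min (by norm_num) (by positivity)
  have hδ2 : δ ≤ 1 / 2 := hδd ▸ min_le_left _ _
  have hδK : δ * ((1 + 1 / w) * (K * 7)) ≤ e := by
    have h1 : δ ≤ e / ((1 + 1 / w) * (K * 7) + 1) := hδd ▸ min_le_right _ _
    rw [le_div_iff₀ (by positivity)] at h1
    linarith
  obtain ⟨T₁, hT₁⟩ := FA.Backlund.exists_small_log hδ hδ2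
    (fun η hη => hS.step (by linarith) hη) he0
  obtain ⟨T₂, hT₂⟩ := eventually_atTop.1 ((tendsto_zeroCount_window hS
    (show 0 < 4 * w by linarith)).eventually (eventually_le_nhds
      (show 4 * w / (2 * π) < 2 * w by
        rw [div_lt_iff₀ (by positivity)]
        nlinarith [Real.pi_gt_three])))
  refine ⟨max (max T₁ (T₂ + 1)) (max 5 (Real.exp ((22 + C) / e))), fun t ht hord => ?_⟩
  obtain ⟨⟨htT1, htT2⟩, ht5, htexp⟩ := by simpa only [max_le_iff] using ht
  obtain ⟨L, hL⟩ : ∃ L, L = Real.log t := ⟨_, rfl⟩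
  have hLe : 22 + C ≤ e * L := by
    have := (Real.le_log_iff_exp_le (show 0 < t by linarith)).2 htexp
    rw [div_le_iff₀ he0, ← hL, mul_comm] at this
    exact this
  have hL0 : 0 ≤ L := hL ▸ Real.log_nonneg (by linarith)
  obtain ⟨F, hF⟩ : ∃ F : ℝ → ℂ, F = fun u : ℝ => deriv riemannZeta ((u : ℂ) + t * I) /
      riemannZeta ((u : ℂ) + t * I) := ⟨_, rfl⟩
  have hFc : ContinuousOn (fun u => (F u).im) (Icc (1 / 2) 2) := fun u hu => by
    obtain ⟨h1, h0⟩ := zeta_ne_zero_horizontal (by linarith : 1 ≤ t) hord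
      (by linarith [hu.1] : 0 < u)
    have ha : AnalyticAt ℂ riemannZeta ((u : ℂ) + t * I) :=
      DifferentiableOn.analyticAt (fun z hz =>
        (differentiableAt_riemannZeta hz).differentiableWithinAt) (isOpen_ne.mem_nhds h1)
    rw [hF]
    exact (continuous_im.continuousAt.comp' (ContinuousAt.comp'
      (g := fun s => deriv riemannZeta s / riemannZeta s) (f := fun v : ℝ => (v : ℂ) + t * I)
      (ha.deriv.continuousAt.div ha.continuousAt h0) (by fun_prop))).continuousWithinAt
  have hi : ∀ a b : ℝ, 1 / 2 ≤ a → a ≤ b → b ≤ 2 →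
      IntervalIntegrable (fun u => (F u).im) volume a b := fun a b h1 h2 h3 =>
    (hFc.mono (by rw [uIcc_of_le h2]; exact Icc_subset_Icc h1 h3)).intervalIntegrable
  -- the part near the critical line
  have hA : |∫ u in (1 / 2 : ℝ)..1 / 2 + δ, (F u).im| ≤ 20 * (e * L) := by
    obtain ⟨Z, hZ, hcard, hcount, hlog⟩ := hexp t (by rw [abs_of_pos] <;> linarith)
    obtain ⟨hRi, hRb⟩ := abs_integral_im_roots Z (t := t) hw0
      (show (1 / 2 : ℝ) ≤ 1 / 2 + δ by linarith)
    have hell : ell t ≤ 7 * L := hL ▸ FA.ZeroOrdinates.ell_le_log' (by linarith)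
    have hrem : |∫ u in (1 / 2 : ℝ)..1 / 2 + δ,
        ((F u).im + (Z.map fun ρ => pois (t - ρ.im) (u - ρ.re)).sum)| ≤ δ * (K * (7 * L)) := by
      rw [← Real.norm_eq_abs]
      refine (intervalIntegral.norm_integral_le_of_norm_le_const (C := K * (7 * L))
        fun u hu => ?_).trans (le_of_eq ?_)
      · rw [uIoc_of_le (by linarith)] at hu
        obtain ⟨-, h0⟩ := zeta_ne_zero_horizontal (by linarith : 1 ≤ t) hord
          (by linarith [hu.1] : 0 < u)
        have h1 := hlog ((u : ℂ) + t * I) (by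
          rw [show (u : ℂ) + t * I - (((3 / 2 : ℝ) : ℂ) + t * I) = ((u - 3 / 2 : ℝ) : ℂ) by
            push_cast; ring, Complex.norm_real, Real.norm_eq_abs, abs_le]
          constructor <;> linarith [hu.1, hu.2]) h0
        have h2 := (abs_im_le_norm _).trans h1
        rw [sub_im, im_sum_inv, sub_neg_eq_add] at h2
        rw [Real.norm_eq_abs, hF]
        exact h2.trans (mul_le_mul_of_nonneg_left hell hK)
      · rw [abs_of_nonneg (by linarith)]
        ring
    rw [intervalIntegral.integral_add (hi _ _ le_rfl (by linarith) (by linarith)) hRi] at hrem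
    have hclose : (Multiset.card (Z.filter fun ρ => |ρ.im - t| ≤ w) : ℝ) ≤ 2 * w * (2 * L) := by
      obtain ⟨T, hT⟩ : ∃ T, T = t - 2 * w := ⟨_, rfl⟩
      have hwin := hT₂ T (by linarith)
      rw [zeroCount_sub_eq (show 0 ≤ T by linarith) (show 0 ≤ 4 * w by linarith) le_rfl,
        div_le_iff₀ (Real.log_pos (by linarith))] at hwin
      refine le_trans ?_ (hwin.trans (mul_le_mul_of_nonneg_left ?_ (by linarith)))
      · rw [← Multiset.toFinset_sum_count_eq, Nat.cast_sum]
        refine le_trans (Finset.sum_le_sum fun ρ hρ => ?_)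
          (Finset.sum_le_sum_of_subset_of_nonneg (fun ρ hρ => ?_) fun _ _ _ => Nat.cast_nonneg _)
        · rw [Multiset.mem_toFinset, Multiset.mem_filter] at hρ
          have h0 : 0 < ρ.re := by
            have := abs_le.1 ((abs_re_le_norm _).trans (hZ ρ hρ.1))
            simp at this
            linarith [this.1]
          rw [Multiset.count_filter_of_pos (p := fun ρ : ℂ => |ρ.im - t| ≤ w) hρ.2,
            ← hcount ρ (hZ ρ hρ.1), zeroWeight,
            analyticOrderNatAt_xiFn h0 fun e => by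
              have := abs_le.1 hρ.2
              rw [e, one_im] at this
              linarith [this.1]]
        · rw [Multiset.mem_toFinset, Multiset.mem_filter] at hρ
          have hc : 0 < Z.count ρ := Multiset.count_pos.2 hρ.1
          rw [← hcount ρ (hZ ρ hρ.1)] at hc
          have hz : riemannZeta ρ = 0 := apply_eq_zero_of_analyticOrderNatAt_ne_zero hc.ne'
          have h0 : 0 < ρ.re := by
            have := abs_le.1 ((abs_re_le_norm _).trans (hZ ρ hρ.1))
            simp at this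
            linarith [this.1]
          obtain ⟨k1, k2⟩ := abs_le.1 hρ.2
          have hne : ρ ≠ 1 := fun e => by rw [e, one_im] at k1; linarith
          rw [Finset.mem_filter, mem_nearZeros]
          refine ⟨⟨(xiFn_eq_zero_iff h0 hne).2 hz, ?_⟩, by linarith, by linarith⟩
          rw [abs_le]
          constructor <;> linarith
      · rw [hL, show (2 : ℝ) * Real.log t = Real.log (t ^ 2) by rw [Real.log_pow]; norm_num]
        exact Real.log_le_log (by linarith) (by nlinarith)
    have h1 : π * (Multiset.card (Z.filter fun ρ => |ρ.im - t| ≤ w) : ℝ) ≤ 4 * (4 * e * L) := by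
      refine mul_le_mul Real.pi_le_four (hclose.trans ?_) (Nat.cast_nonneg _) (by norm_num)
      have := mul_le_mul_of_nonneg_right hwe hL0
      linarith [mul_nonneg hw0.le hL0]
    have h2 : (1 / 2 + δ - 1 / 2) / w * (Multiset.card Z : ℝ) ≤ δ * (1 / w) * (K * 7) * L := by
      rw [add_sub_cancel_left, mul_one_div, mul_assoc _ (K * 7)]
      refine mul_le_mul_of_nonneg_left ?_ (div_nonneg hδ.le hw0.le)
      have := mul_le_mul_of_nonneg_left hell hK
      linarith
    have h3 := mul_le_mul_of_nonneg_right hδK hL0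
    have h4 := hRb.trans (add_le_add h1 h2)
    rw [abs_le] at hrem h4 ⊢
    constructor <;> linarith
  -- the part in the disc
  have hB : |∫ u in (1 / 2 + δ : ℝ)..3 / 2, (F u).im| ≤ 6 * (e * L) := by
    obtain ⟨N, g, hgd, ⟨Z, K', hcard, hfac⟩, hN, hg, -⟩ := hT₁ t htT1
    obtain ⟨c, hc⟩ : ∃ c : ℂ, c = ((1 + 1 / 2 : ℝ) : ℂ) + t * I := ⟨_, rfl⟩
    rw [← hc] at hfac
    obtain ⟨z, hz⟩ : ∃ z : ℝ → ℂ, z = fun u => ((u - 3 / 2 : ℝ) : ℂ) := ⟨_, rfl⟩
    have hzn : ∀ u ∈ Icc (1 / 2 + δ) (3 / 2), ‖z u‖ ≤ 1 - δ := fun u hu => by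
      rw [hz, Complex.norm_real, Real.norm_eq_abs, abs_le]
      constructor <;> linarith [hu.1, hu.2]
    have hzb : ∀ u ∈ Icc (1 / 2 + δ) (3 / 2), z u ∈ ball (0 : ℂ) (1 - δ / 4) := fun u hu =>
      mem_ball_zero_iff.2 (by linarith [hzn u hu])
    have hpt : ∀ u ∈ Icc (1 / 2 + δ) (3 / 2), (F u).im =
        -(Z.map fun ρ => pois (-ρ.im) (u - 3 / 2 - ρ.re)).sum + (deriv g (z u)).im := by
      intro u hu
      obtain ⟨-, h0⟩ := zeta_ne_zero_horizontal (by linarith : 1 ≤ t) hord
        (by linarith [hu.1] : 0 < u)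
      obtain ⟨x, hx⟩ : ∃ x, x = z u := ⟨_, rfl⟩
      have hcx : c + x = (u : ℂ) + t * I := by
        rw [hc, hx, hz]
        push_cast
        ring
      have hxb : x ∈ ball (0 : ℂ) (1 - δ / 4) := hx ▸ hzb u hu
      have he' := hfac x (mem_ball_zero_iff.1 hxb)
      rw [← hcx] at h0
      rw [hF]
      simp only
      rw [← hcx, ← hx]
      have hP : rootProd Z x ≠ 0 := fun h => h0 (by rw [he', h, zero_mul])
      have hK' : K' ≠ 0 := fun h => h0 (by rw [he', h, zero_mul, mul_zero])
      have hne : ∀ ρ ∈ Z, x ≠ ρ := fun ρ hρ e' => hP (by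
        rw [rootProd, Multiset.prod_eq_zero_iff]
        exact Multiset.mem_map.2 ⟨ρ, hρ, sub_eq_zero.2 e'⟩)
      have hg' := (hgd.differentiableAt (isOpen_ball.mem_nhds hxb)).hasDerivAt
      have hprod := (hasDerivAt_rootProd hne).mul (hg'.cexp.const_mul K')
      have hev : (fun v => riemannZeta (c + v)) =ᶠ[nhds x]
          fun v => rootProd Z v * (K' * Complex.exp (g v)) := by
        filter_upwards [isOpen_ball.mem_nhds hxb] with v hv
        exact hfac v (mem_ball_zero_iff.1 hv)
      have hd := (hprod.congr_of_eventuallyEq hev).deriv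
      rw [deriv_comp_const_add] at hd
      have := Complex.exp_ne_zero (g x)
      rw [hd, he', show (rootProd Z x * (Z.map fun ρ => (x - ρ)⁻¹).sum * (K' * cexp (g x)) +
          rootProd Z x * (K' * (cexp (g x) * deriv g x))) / (rootProd Z x * (K' * cexp (g x))) =
          (Z.map fun ρ => (x - ρ)⁻¹).sum + deriv g x by field_simp, add_im,
        show x = ((u - 3 / 2 : ℝ) : ℂ) + ((0 : ℝ) : ℂ) * I by rw [hx, hz]; simp, im_sum_inv]
      simp only [zero_sub]
    have hgc : ContinuousOn (fun u => (deriv g (z u)).im) (uIcc (1 / 2 + δ) (3 / 2)) := by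
      rw [uIcc_of_le (by linarith)]
      exact continuous_im.comp_continuousOn ((hgd.deriv isOpen_ball).continuousOn.comp
        (hz ▸ (by fun_prop : Continuous fun u : ℝ => ((u - 3 / 2 : ℝ) : ℂ))).continuousOn hzb)
    have hRi : IntervalIntegrable (fun u => (Z.map fun ρ => pois (-ρ.im) (u - 3 / 2 - ρ.re)).sum)
        volume (1 / 2 + δ) (3 / 2) ∧
      |∫ u in (1 / 2 + δ : ℝ)..3 / 2, (Z.map fun ρ => pois (-ρ.im) (u - 3 / 2 - ρ.re)).sum| ≤
        π * N := by
      rw [← hcard]
      clear hpt hfac hcard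
      induction Z using Multiset.induction_on with
      | empty => simp
      | cons ρ Z ih =>
        have h1 : IntervalIntegrable (fun u => pois (-ρ.im) (u - 3 / 2 - ρ.re)) volume
            (1 / 2 + δ) (3 / 2) := by
          simp only [sub_sub]
          exact intervalIntegrable_pois _ _ _ _
        simp only [Multiset.map_cons, Multiset.sum_cons, Multiset.card_cons]
        refine ⟨h1.add ih.1, ?_⟩
        rw [intervalIntegral.integral_add h1 ih.1]
        refine (abs_add_le _ _).trans ?_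
        simp only [sub_sub] at ih ⊢
        rw [integral_pois, Nat.cast_succ]
        linarith [abs_kern_le (-ρ.im) (3 / 2 + ρ.re) (1 / 2 + δ) (3 / 2), ih.2]
    have hle : (1 / 2 + δ : ℝ) ≤ 3 / 2 := by linarith
    have hRn : IntervalIntegrable
        (fun u => -(Z.map fun ρ => pois (-ρ.im) (u - 3 / 2 - ρ.re)).sum)
        volume (1 / 2 + δ) (3 / 2) := hRi.1.neg
    rw [intervalIntegral.integral_congr fun u hu => hpt u (uIcc_of_le hle ▸ hu),
      intervalIntegral.integral_add hRn hgc.intervalIntegrable, intervalIntegral.integral_neg,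
      intervalIntegral.integral_eq_sub_of_hasDerivAt (f := fun u => (g (z u)).im) (fun u hu => ?_)
        hgc.intervalIntegrable]
    · have h1 := (abs_im_le_norm _).trans (hg (z (1 / 2 + δ)) (hzn _ ⟨le_rfl, hle⟩))
      have h2 := (abs_im_le_norm _).trans (hg (z (3 / 2)) (hzn _ ⟨hle, le_rfl⟩))
      rw [← hL] at h1 h2 hN
      have h3 : π * N ≤ 4 * (e * L) :=
        mul_le_mul Real.pi_le_four hN (Nat.cast_nonneg _) (by norm_num)
      have h4 := hRi.2
      rw [abs_le] at h1 h2 h4 ⊢
      constructor <;> linarith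
    · rw [uIcc_of_le hle] at hu
      have hin : HasDerivAt z 1 u := by
        rw [hz]
        simpa using ((hasDerivAt_id' u).sub_const (3 / 2)).ofReal_comp
      have hd := ((hgd.differentiableAt (isOpen_ball.mem_nhds (hzb u hu))).hasDerivAt.comp u hin)
      exact (imCLM.hasFDerivAt.comp_hasDerivAt u hd).congr_deriv (by simp)
  -- the part to the right
  have hR : |∫ u in (3 / 2 : ℝ)..2, (F u).im| ≤ C := by
    rw [← Real.norm_eq_abs]
    refine (intervalIntegral.norm_integral_le_of_norm_le_const (C := C) fun u hu => ?_).trans ?_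
    · rw [uIoc_of_le (by norm_num)] at hu
      rw [Real.norm_eq_abs, hF]
      exact (abs_im_le_norm _).trans
        (hright _ (by simp; linarith [hu.1]) (by simp; linarith [hu.2]))
    · norm_num
      linarith
  -- the rest
  have hE : |horArg t - ∫ u in (1 / 2 : ℝ)..2, (F u).im| ≤ 22 := by
    have hxc : Continuous fun u : ℝ => (xiLogDeriv ((u : ℂ) + t * I)).im :=
      continuous_iff_continuousAt.2 fun u => continuous_im.continuousAt.comp'
        (ContinuousAt.comp' (g := xiLogDeriv) (continuousAt_xiLogDeriv fun h => hord _ h (by simp))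
          (by fun_prop))
    rw [horArg, ← intervalIntegral.integral_sub (hxc.intervalIntegrable _ _)
      (hi _ _ le_rfl (by norm_num) le_rfl), ← Real.norm_eq_abs]
    refine (intervalIntegral.norm_integral_le_of_norm_le_const (C := 14) fun u hu => ?_).trans ?_
    · rw [uIoc_of_le (by norm_num)] at hu
      obtain ⟨h1, h0⟩ := zeta_ne_zero_horizontal (by linarith : 1 ≤ t) hord
        (by linarith [hu.1] : 0 < u)
      obtain ⟨s, hs⟩ : ∃ s : ℂ, s = (u : ℂ) + t * I := ⟨_, rfl⟩
      have hre : s.re = u := by simp [hs]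
      have him : s.im = t := by simp [hs]
      rw [← hs] at h1 h0
      rw [hF, Real.norm_eq_abs]
      simp only
      rw [← hs, ← sub_im, xiLogDeriv_eq_reg (by linarith [hu.1]) h1 h0, add_sub_cancel_right]
      have k2 := (abs_im_le_norm _).trans (FA.PairCorrelation.norm_gammaReg_sub_log_le
        (s := s) (by linarith [hu.1]) (by linarith [hu.2]))
      rw [sub_im, ofReal_im, sub_zero] at k2
      have k1 : |((s - 1)⁻¹).im| ≤ 1 := by
        refine (abs_im_le_norm _).trans ?_
        rw [norm_inv]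
        refine inv_le_one_of_one_le₀ ?_
        have := abs_im_le_norm (s - 1)
        rw [sub_im, him, one_im, sub_zero, abs_of_pos (by linarith)] at this
        linarith
      rw [add_im]
      exact (abs_add_le _ _).trans (by linarith)
    · norm_num
  rw [← intervalIntegral.integral_add_adjacent_intervals
      (hi (1 / 2) (1 / 2 + δ) le_rfl (by linarith) (by linarith))
      (hi (1 / 2 + δ) 2 (by linarith) (by linarith) le_rfl),
    ← intervalIntegral.integral_add_adjacent_intervals
      (hi (1 / 2 + δ) (3 / 2) (by linarith) (by linarith) (by norm_num))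
      (hi (3 / 2) 2 (by norm_num) (by norm_num) le_rfl)] at hE
  rw [← hL, show ε * L = 40 * (e * L) by rw [he]; ring]
  rw [abs_le] at hA hB hR hE ⊢
  constructor <;> linarith [mul_nonneg he0.le hL0]

/-- **`N (T)` up to `o (log T)`.** -/
theorem tendsto_zeroCount_sub_mainTerm (hS : FA.Backlund.ZerosSparse) :
    Tendsto (fun T => ((zeroCount T : ℝ) - mainTerm T) / Real.log T) atTop (𝓝 0) := by
  rw [Metric.tendsto_nhds]
  intro ε hε
  obtain ⟨T₀, hT₀⟩ := exists_horArg_small hS hε
  obtain ⟨D, hD⟩ : ∃ D, D = |(∫ u in (-1 : ℝ)..2, xiLogDeriv (u : ℂ)).im| + 30 := ⟨_, rfl⟩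
  filter_upwards [eventually_ge_atTop T₀, eventually_ge_atTop 3,
    Real.tendsto_log_atTop.eventually_gt_atTop (3 * (D + 6) / ε)] with T hT hT3 hTl
  obtain ⟨A, hA⟩ : ∃ A : Set ℝ, A = Complex.im '' zetaZeros (T + 1) := ⟨_, rfl⟩
  have hAf : A.Finite := hA ▸ (finite_zetaZeros _).image _
  have hev : ∀ᶠ x in 𝓝[>] T, ∀ a ∈ A, a ≤ T ∨ x < a := by
    rw [hAf.eventually_all]
    intro a _
    rcases le_or_gt a T with ha | ha
    · exact Eventually.of_forall fun _ => Or.inl ha
    · exact ((eventually_lt_nhds ha).filter_mono nhdsWithin_le_nhds).mono fun _ hx => Or.inr hx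
  have hmain : ∀ᶠ x in 𝓝 T, |mainTerm x - mainTerm T| < 1 := by
    have hc : ContinuousAt mainTerm T := by
      unfold mainTerm
      exact ((continuousAt_id.div_const _).mul ((continuousAt_id.div_const _).log
        (div_ne_zero (show T ≠ 0 by linarith) (by positivity)))).sub (continuousAt_id.div_const _)
    exact Metric.tendsto_nhds.1 hc 1 one_pos
  obtain ⟨T', ⟨⟨hgap, hmT⟩, hT'⟩, hgt⟩ := (((hev.and (hmain.filter_mono nhdsWithin_le_nhds)).and
    ((eventually_lt_nhds (show T < T + 1 by linarith)).filter_mono nhdsWithin_le_nhds)).and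
      self_mem_nhdsWithin).exists
  replace hgt : T < T' := hgt
  have hord : ∀ ρ, xiFn ρ = 0 → ρ.im ≠ T' := fun ρ hρ him => by
    have hm : ρ.im ∈ A := hA ▸ ⟨ρ, mem_zetaZeros_iff.2 ⟨hρ, by linarith, by linarith⟩, rfl⟩
    rcases hgap _ hm with h1 | h1 <;> linarith
  have hN : zeroCount T' = zeroCount T := by
    refine le_antisymm ?_ (zeroCount_mono hgt.le)
    refine Finset.sum_le_sum_of_subset fun ρ hρ => ?_
    rw [Set.Finite.mem_toFinset] at hρ ⊢
    obtain ⟨h1, h2, h3, h4, h5⟩ := hρ
    refine ⟨h1, h2, h3, h4, ?_⟩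
    by_contra hlt
    have hm : ρ.im ∈ A := hA ▸ ⟨ρ, ⟨h1, h2, h3, h4, by linarith⟩, rfl⟩
    rcases hgap _ hm with h6 | h6 <;> linarith
  have hneg : ∀ ρ, xiFn ρ = 0 → ρ.im ≠ -T' := fun ρ hρ h =>
    hord (1 - ρ) (by rw [xiFn_one_sub, hρ]) (by simp [h])
  have h := (edgeSum_xiLogDeriv (by linarith) hord).symm.trans (edgeSum_reflect hord)
  rw [im_integral_eq_horArg hord, im_integral_eq_horArg hneg, horArg_neg, hN] at h
  have hv := abs_vertical_sub_le (T := T') (by linarith)
  have h1 := hT₀ T' (by linarith) hord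
  have hlog : Real.log T' ≤ Real.log T + 1 := by
    have := Real.log_le_log (show 0 < T' by linarith) (show T' ≤ 2 * T by linarith)
    rw [Real.log_mul (by norm_num) (by linarith)] at this
    linarith [Real.log_two_lt_d9]
  have e : T' * Real.log (T' / (2 * π)) - T' = 2 * π * mainTerm T' := by
    have := Real.pi_ne_zero
    rw [mainTerm]
    field_simp
  rw [e] at hv
  obtain ⟨L, hL⟩ : ∃ L, L = Real.log T := ⟨_, rfl⟩
  rw [← hL] at hlog hTl ⊢
  have hL0 : 0 < L := hL ▸ Real.log_pos (by linarith)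
  have hlT : 0 ≤ Real.log T' := Real.log_nonneg (by linarith)
  have hεl := mul_le_mul_of_nonneg_left hlog hε.le
  rw [div_lt_iff₀ hε] at hTl
  have hD0 := neg_abs_le (∫ u in (-1 : ℝ)..2, xiLogDeriv (u : ℂ)).im
  have hD1 := le_abs_self (∫ u in (-1 : ℝ)..2, xiLogDeriv (u : ℂ)).im
  have hb : |2 * π * ((zeroCount T : ℝ) - mainTerm T')| ≤ D + 2 * (ε * (L + 1)) := by
    rw [abs_le] at hv h1 ⊢
    constructor <;> linarith
  rw [abs_mul, abs_of_pos (show 0 < 2 * π by positivity)] at hb
  have h6 := mul_le_mul_of_nonneg_right (show 6 ≤ 2 * π by linarith [Real.pi_gt_three])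
    (abs_nonneg ((zeroCount T : ℝ) - mainTerm T'))
  have h4 := abs_sub_le (zeroCount T : ℝ) (mainTerm T') (mainTerm T)
  have hεl1 : ε ≤ ε * L := by
    refine le_mul_of_one_le_right hε.le (hL ▸ (Real.le_log_iff_exp_le (by linarith)).2 ?_)
    linarith [Real.exp_one_lt_d9]
  rw [Real.dist_eq, sub_zero, abs_div, abs_of_pos hL0, div_lt_iff₀ hL0]
  linarith

end FA.XiProduct

end
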